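import Fermat.Agent.DeBruijn.Heat
import Mathlib.Analysis.SpecialFunctions.Trigonometric.Series
import Mathlib.Analysis.Calculus.ParametricIntegral

/-!
# The theorem for cosine transforms

For `φ` real with `φ u exp (c u²)` integrable for every `c`, a step multiplies `φ` by `cosh (a u)`,
so `heatFlow t` of `∫ φ u cos (z u)` is `∫ exp (t u²) φ u cos (z u)`.
-/

set_option autoImplicit false

noncomputable section

namespace FA.DeBruijn

open Complex Filter Topology MeasureTheory
open scoped ComplexConjugate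

/-- `φ u exp (c u²)` is integrable for every `c`. -/
def GaussDecay (φ : ℝ → ℝ) : Prop := ∀ c : ℝ, Integrable fun u => φ u * Real.exp (c * u ^ 2)

/-- `∫ φ u cos (z u)`. -/
def cosTransform (φ : ℝ → ℝ) (z : ℂ) : ℂ := ∫ u : ℝ, (φ u : ℂ) * Complex.cos (z * u)

variable {φ : ℝ → ℝ}

theorem norm_cos_le_exp (w : ℂ) : ‖Complex.cos w‖ ≤ Real.exp ‖w‖ := by
  rw [Complex.cos, norm_div, Complex.norm_ofNat, div_le_iff₀ two_pos]
  refine (norm_add_le _ _).trans ?_
  rw [Complex.norm_exp, Complex.norm_exp]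
  have h := abs_le.1 (Complex.abs_im_le_norm w)
  have h1 : Real.exp (w * I).re ≤ Real.exp ‖w‖ := Real.exp_le_exp.2 (by simp; linarith)
  have h2 : Real.exp (-w * I).re ≤ Real.exp ‖w‖ := Real.exp_le_exp.2 (by simp; linarith)
  linarith

theorem norm_sin_le_exp (w : ℂ) : ‖Complex.sin w‖ ≤ Real.exp ‖w‖ := by
  rw [Complex.sin, norm_div, Complex.norm_ofNat, div_le_iff₀ two_pos, norm_mul, norm_I, mul_one]
  refine (norm_sub_le _ _).trans ?_
  rw [Complex.norm_exp, Complex.norm_exp]
  have h := abs_le.1 (Complex.abs_im_le_norm w)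
  have h1 : Real.exp (-w * I).re ≤ Real.exp ‖w‖ := Real.exp_le_exp.2 (by simp; linarith)
  have h2 : Real.exp (w * I).re ≤ Real.exp ‖w‖ := Real.exp_le_exp.2 (by simp; linarith)
  linarith

theorem exp_mul_abs_le {R : ℝ} {η : ℝ} (hη : 0 < η) (u : ℝ) :
    Real.exp (R * |u|) ≤ Real.exp (η * R ^ 2) * Real.exp (1 / (4 * η) * u ^ 2) := by
  rw [← Real.exp_add]
  refine Real.exp_le_exp.2 ?_
  rw [← sub_nonneg]
  refine (show (0 : ℝ) ≤ η * (R - |u| / (2 * η)) ^ 2 by positivity).trans_eq ?_
  rw [← sq_abs u]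
  field_simp
  ring

theorem GaussDecay.aesm (hφ : GaussDecay φ) : AEStronglyMeasurable φ volume := by
  simpa using (hφ 0).aestronglyMeasurable

theorem GaussDecay.bound_integrable (hφ : GaussDecay φ) (c : ℝ) :
    Integrable fun u => |φ u| * Real.exp (c * u ^ 2) :=
  (hφ c).norm.congr (Eventually.of_forall fun u => by
    simp [abs_of_pos (Real.exp_pos _)])

theorem GaussDecay.norm_le (z : ℂ) {η : ℝ} (hη : 0 < η) (u : ℝ) :
    ‖(φ u : ℂ) * Complex.cos (z * u)‖ ≤
      Real.exp (η * ‖z‖ ^ 2) * (|φ u| * Real.exp (1 / (4 * η) * u ^ 2)) := by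
  rw [norm_mul, norm_real, Real.norm_eq_abs]
  refine (mul_le_mul_of_nonneg_left ((norm_cos_le_exp _).trans ?_) (abs_nonneg _)).trans_eq
    (b := |φ u| * (Real.exp (η * ‖z‖ ^ 2) * Real.exp (1 / (4 * η) * u ^ 2))) (by ring)
  rw [norm_mul, norm_real, Real.norm_eq_abs]
  exact exp_mul_abs_le hη u

theorem GaussDecay.aesm_cos (hφ : GaussDecay φ) (z : ℂ) :
    AEStronglyMeasurable (fun u : ℝ => (φ u : ℂ) * Complex.cos (z * u)) volume :=
  (Complex.continuous_ofReal.comp_aestronglyMeasurable hφ.aesm).mul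
    (show Continuous fun u : ℝ => Complex.cos (z * u) by fun_prop).aestronglyMeasurable

theorem GaussDecay.integrable_cos (hφ : GaussDecay φ) (z : ℂ) :
    Integrable fun u : ℝ => (φ u : ℂ) * Complex.cos (z * u) :=
  ((hφ.bound_integrable _).const_mul _).mono' (hφ.aesm_cos z)
    (Eventually.of_forall fun u => GaussDecay.norm_le z one_pos u)

theorem GaussDecay.heatGrowth (hφ : GaussDecay φ) : HeatGrowth (cosTransform φ) := by
  refine ⟨fun z => ?_, fun η hη => ?_⟩
  · refine (hasDerivAt_integral_of_dominated_loc_of_deriv_le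
      (F := fun (w : ℂ) (u : ℝ) => (φ u : ℂ) * Complex.cos (w * u))
      (F' := fun (w : ℂ) (u : ℝ) => (φ u : ℂ) * (-Complex.sin (w * u) * u))
      (bound := fun u => Real.exp ((‖z‖ + 2) ^ 2) * (|φ u| * Real.exp (1 / 4 * u ^ 2)))
      (Metric.ball_mem_nhds z one_pos) (Eventually.of_forall fun w => hφ.aesm_cos w)
      (hφ.integrable_cos z) ?_ ?_ ?_ ?_).2.differentiableAt
    · exact (Complex.continuous_ofReal.comp_aestronglyMeasurable hφ.aesm).mul
        (show Continuous fun u : ℝ => -Complex.sin (z * u) * u by fun_prop).aestronglyMeasurable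
    · refine Eventually.of_forall fun u w hw => ?_
      rw [norm_mul, norm_real, Real.norm_eq_abs, norm_mul, norm_neg, norm_real, Real.norm_eq_abs]
      have hw' : ‖w‖ + 1 ≤ ‖z‖ + 2 := by
        rw [Metric.mem_ball, dist_eq_norm] at hw
        linarith [norm_le_norm_add_norm_sub' w z]
      refine (mul_le_mul_of_nonneg_left ?_ (abs_nonneg _)).trans_eq
        (b := |φ u| * (Real.exp ((‖z‖ + 2) ^ 2) * Real.exp (1 / 4 * u ^ 2))) (by ring)
      calc ‖Complex.sin (w * u)‖ * |u| ≤ Real.exp (‖w‖ * |u|) * Real.exp |u| := by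
            refine mul_le_mul ((norm_sin_le_exp _).trans_eq ?_)
              (by linarith [Real.add_one_le_exp |u|]) (abs_nonneg _) (Real.exp_pos _).le
            rw [norm_mul, norm_real, Real.norm_eq_abs]
        _ ≤ Real.exp ((‖z‖ + 2) * |u|) := by
            rw [← Real.exp_add]
            exact Real.exp_le_exp.2 (by nlinarith [abs_nonneg u])
        _ ≤ _ := by simpa using exp_mul_abs_le (R := ‖z‖ + 2) one_pos u
    · exact (hφ.bound_integrable _).const_mul _
    · refine Eventually.of_forall fun u w _ => ?_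
      have h := (Complex.hasDerivAt_cos (w * u)).comp w ((hasDerivAt_id w).mul_const (u : ℂ))
      simpa using h.const_mul (φ u : ℂ)
  · obtain ⟨A, hA⟩ : ∃ A, A = ∫ u, |φ u| * Real.exp (1 / (4 * η) * u ^ 2) := ⟨_, rfl⟩
    refine ⟨A, fun z => ?_⟩
    refine (norm_integral_le_of_norm_le ((hφ.bound_integrable _).const_mul _)
      (Eventually.of_forall fun u => GaussDecay.norm_le z hη u)).trans ?_
    rw [integral_const_mul, ← hA, Real.exp_add]
    exact mul_le_mul_of_nonneg_left (by linarith [Real.add_one_le_exp A]) (Real.exp_pos _).le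

theorem GaussDecay.mul_cosh (hφ : GaussDecay φ) (a : ℝ) (N : ℕ) :
    GaussDecay fun u => φ u * Real.cosh (a * u) ^ N := fun c => by
  refine (hφ.bound_integrable (c + N * (a ^ 2 / 2))).mono'
    ((hφ.aesm.mul (Real.continuous_cosh.comp
      (continuous_const.mul continuous_id) |>.pow N).aestronglyMeasurable).mul
      (show Continuous fun u : ℝ => Real.exp (c * u ^ 2) by fun_prop).aestronglyMeasurable)
    (Eventually.of_forall fun u => ?_)
  rw [Real.norm_eq_abs, abs_mul, abs_mul, abs_of_pos (Real.exp_pos _),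
    abs_of_pos (pow_pos (Real.cosh_pos _) N), mul_assoc]
  refine mul_le_mul_of_nonneg_left ?_ (abs_nonneg _)
  refine (mul_le_mul_of_nonneg_right (pow_le_pow_left₀ (Real.cosh_pos _).le
    (Real.cosh_le_exp_half_sq _) N) (Real.exp_pos _).le).trans_eq ?_
  rw [← Real.exp_nat_mul, ← Real.exp_add]
  ring_nf

theorem stepOp_cosTransform (hφ : GaussDecay φ) (a : ℝ) :
    stepOp a (cosTransform φ) = cosTransform fun u => φ u * Real.cosh (a * u) := by
  funext z
  simp only [stepOp, cosTransform]
  rw [← integral_add (hφ.integrable_cos _) (hφ.integrable_cos _), ← integral_div]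
  refine integral_congr_ae (Eventually.of_forall fun u => ?_)
  simp only
  push_cast
  rw [← Complex.cos_mul_I ((a : ℂ) * u), show (a : ℂ) * u * I = (a : ℂ) * I * u by ring,
    add_mul, sub_mul, Complex.cos_add, Complex.cos_sub]
  ring

theorem iterate_cosTransform (hφ : GaussDecay φ) (a : ℝ) (N : ℕ) :
    (stepOp a)^[N] (cosTransform φ) = cosTransform fun u => φ u * Real.cosh (a * u) ^ N := by
  induction N with
  | zero => simp
  | succ N ih =>
    rw [Function.iterate_succ_apply', ih, stepOp_cosTransform (hφ.mul_cosh a N)]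
    simp only [pow_succ, mul_assoc]

theorem tendsto_cosh_pow {t : ℝ} (ht : 0 ≤ t) (u : ℝ) :
    Tendsto (fun N : ℕ => Real.cosh (√(2 * t / N) * u) ^ N) atTop
      (𝓝 (Real.exp (t * u ^ 2))) := by
  have h : ∀ N : ℕ, (√(2 * t / N) * u) ^ 2 / 2 = t * u ^ 2 / N := fun N => by
    rw [mul_pow, Real.sq_sqrt (by positivity)]; ring
  refine tendsto_of_tendsto_of_tendsto_of_le_of_le' (Real.tendsto_one_add_div_pow_exp (t * u ^ 2))
    tendsto_const_nhds (Eventually.of_forall fun N => ?_) (Eventually.of_forall fun N => ?_)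
  · refine pow_le_pow_left₀ (by positivity) ?_ N
    rw [← h]
    have hs := sum_le_hasSum (Finset.range 2) (fun n _ => by rw [pow_mul]; positivity)
      (Real.hasSum_cosh (√(2 * t / N) * u))
    simpa [Finset.sum_range_succ] using hs
  · refine (pow_le_pow_left₀ (Real.cosh_pos _).le (Real.cosh_le_exp_half_sq _) N).trans ?_
    rw [← Real.exp_nat_mul, h]
    refine Real.exp_le_exp.2 ?_
    rcases Nat.eq_zero_or_pos N with rfl | hN
    · simp; positivity
    · rw [mul_div_cancel₀ _ (Nat.cast_ne_zero.2 hN.ne')]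

/-- The two definitions of the flow agree. -/
theorem heatFlow_cosTransform (hφ : GaussDecay φ) {t : ℝ} (ht : 0 ≤ t) :
    heatFlow t (cosTransform φ) = cosTransform fun u => φ u * Real.exp (t * u ^ 2) := by
  rcases eq_or_lt_of_le ht with rfl | ht0
  · simp [heatFlow_zero]
  funext z
  have h1 : Tendsto (fun N : ℕ => ((stepOp (√(2 * t / N)))^[N] (cosTransform φ)) z) atTop
      (𝓝 (heatFlow t (cosTransform φ) z)) := by
    rw [Metric.tendsto_atTop]
    intro ε hε
    obtain ⟨M, hM⟩ := eventually_atTop.1 (hφ.heatGrowth.tendsto_iterate ht0 ‖z‖ ε hε)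
    exact ⟨M, fun N hN => by rw [dist_eq_norm]; exact hM N hN z le_rfl⟩
  refine tendsto_nhds_unique h1 ?_
  simp only [iterate_cosTransform hφ, cosTransform]
  refine tendsto_integral_of_dominated_convergence
    (fun u => Real.exp (‖z‖ ^ 2) * (|φ u| * Real.exp ((t + 1 / 4) * u ^ 2)))
    (fun N => (hφ.mul_cosh _ N).aesm_cos z) ((hφ.bound_integrable _).const_mul _)
    (fun N => Eventually.of_forall fun u => ?_) (Eventually.of_forall fun u => ?_)
  · refine (GaussDecay.norm_le (φ := fun u => φ u * Real.cosh (√(2 * t / N) * u) ^ N) z one_pos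
      u).trans ?_
    rw [one_mul, mul_one, abs_mul, abs_of_pos (pow_pos (Real.cosh_pos _) N), mul_assoc]
    refine mul_le_mul_of_nonneg_left (mul_le_mul_of_nonneg_left ?_ (abs_nonneg _))
      (Real.exp_pos _).le
    rw [add_mul, Real.exp_add]
    refine mul_le_mul_of_nonneg_right ?_ (Real.exp_pos _).le
    refine (pow_le_pow_left₀ (Real.cosh_pos _).le (Real.cosh_le_exp_half_sq _) N).trans ?_
    rw [← Real.exp_nat_mul, mul_pow, Real.sq_sqrt (by positivity)]
    refine Real.exp_le_exp.2 ?_
    rcases Nat.eq_zero_or_pos N with rfl | hN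
    · simp; positivity
    · have : (N : ℝ) ≠ 0 := Nat.cast_ne_zero.2 hN.ne'
      refine le_of_eq ?_
      field_simp
  · exact ((Complex.continuous_ofReal.tendsto _).comp
      ((tendsto_cosh_pow ht u).const_mul (φ u))).mul_const _

theorem stripZeros_cosTransform (hφ : GaussDecay φ) {D : ℝ}
    (hne : ∃ z, cosTransform φ z ≠ 0) (h : ∀ z, cosTransform φ z = 0 → z.im ^ 2 ≤ D) :
    StripZeros (cosTransform φ) D :=
  { hφ.heatGrowth with
    real := fun z => by
      rw [cosTransform, cosTransform, ← integral_conj]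
      refine integral_congr_ae (Eventually.of_forall fun u => ?_)
      simp only [map_mul, conj_ofReal, ← Complex.cos_conj]
    even := fun z => by simp only [cosTransform, neg_mul, Complex.cos_neg]
    zeros := h
    ne_zero := hne }

end FA.DeBruijn

end
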