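import Mathlib.Analysis.SpecificLimits.Normed
import Mathlib.Data.Nat.Choose.Cast
import Mathlib.Topology.Algebra.InfiniteSum.Module
import Mathlib.Analysis.Real.Sqrt
import Mathlib.Algebra.BigOperators.Field

/-!
# The moments of the symmetric walk

`avgWalk a N g` is the mean of `g` at the end of `N` steps `± a`. Its moment of order `2 k` over
`(2 k)!` is at most `(N a² / 2) ^ k / k!` and tends to this bound.
-/

set_option autoImplicit false

noncomputable section

namespace FA.DeBruijn

open Filter Topology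

section
variable {E : Type*} [AddCommGroup E] [Module ℝ E]

/-- The mean over the `2 ^ N` paths. -/
def avgWalk (a : ℝ) : ℕ → (ℝ → E) → E
  | 0, g => g 0
  | N + 1, g => (2 : ℝ)⁻¹ • (avgWalk a N (fun s => g (s + a)) + avgWalk a N (fun s => g (s - a)))

theorem avgWalk_add (a : ℝ) (N : ℕ) :
    ∀ g h : ℝ → E, avgWalk a N (fun s => g s + h s) = avgWalk a N g + avgWalk a N h := by
  induction N with
  | zero => intro g h; rfl
  | succ N ih =>
    intro g h
    simp only [avgWalk, ih, ← smul_add]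
    congr 1
    abel

theorem avgWalk_smul (a : ℝ) (N : ℕ) :
    ∀ (c : ℝ) (g : ℝ → E), avgWalk a N (fun s => c • g s) = c • avgWalk a N g := by
  induction N with
  | zero => intro c g; rfl
  | succ N ih =>
    intro c g
    simp only [avgWalk, ih, ← smul_add, smul_comm c]

theorem avgWalk_zero_fn (a : ℝ) (N : ℕ) : avgWalk a N (fun _ => (0 : E)) = 0 := by
  simpa using avgWalk_smul a N 0 (fun _ => (0 : E))

theorem avgWalk_sum (a : ℝ) (N : ℕ) {ι : Type*} (A : Finset ι) (g : ι → ℝ → E) :
    avgWalk a N (fun s => ∑ i ∈ A, g i s) = ∑ i ∈ A, avgWalk a N (g i) := by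
  classical
  induction A using Finset.induction_on with
  | empty => simpa using avgWalk_zero_fn a N
  | insert i A hi ih => simp only [Finset.sum_insert hi, avgWalk_add, ih]

theorem avgWalk_neg (a : ℝ) (N : ℕ) :
    ∀ g : ℝ → E, avgWalk a N (fun s => g (-s)) = avgWalk a N g := by
  induction N with
  | zero => intro g; simp [avgWalk]
  | succ N ih =>
    intro g
    simp only [avgWalk]
    rw [add_comm, ← ih (fun s => g (s + a)), ← ih (fun s => g (s - a))]
    congr 2 <;> congr 1 <;> funext s <;> congr 1 <;> ring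

/-- The mean commutes with a linear map. -/
theorem map_avgWalk {F : Type*} [AddCommGroup F] [Module ℝ F] (φ : E →ₗ[ℝ] F) (a : ℝ) (N : ℕ) :
    ∀ g : ℝ → E, φ (avgWalk a N g) = avgWalk a N (fun s => φ (g s)) := by
  induction N with
  | zero => intro g; rfl
  | succ N ih => intro g; simp only [avgWalk, map_smul, map_add, ih]

theorem hasSum_avgWalk [TopologicalSpace E] [ContinuousAdd E] [ContinuousConstSMul ℝ E]
    (a : ℝ) {ι : Type*} (N : ℕ) : ∀ (g : ι → ℝ → E) (h : ℝ → E),
      (∀ s, HasSum (fun i => g i s) (h s)) →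
      HasSum (fun i => avgWalk a N (g i)) (avgWalk a N h) := by
  induction N with
  | zero => intro g h hs; exact hs 0
  | succ N ih =>
    intro g h hs
    exact ((ih (fun i s => g i (s + a)) _ fun s => hs (s + a)).add
      (ih (fun i s => g i (s - a)) _ fun s => hs (s - a))).const_smul _

end

/-- The moment of order `n`. -/
def walkMom (a : ℝ) (N n : ℕ) : ℝ := avgWalk a N fun s => s ^ n

theorem walkMom_odd (a : ℝ) (N k : ℕ) : walkMom a N (2 * k + 1) = 0 := by
  have h : avgWalk a N (fun s : ℝ => (-1 : ℝ) • s ^ (2 * k + 1)) = walkMom a N (2 * k + 1) := by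
    rw [walkMom, ← avgWalk_neg a N (fun s => s ^ (2 * k + 1))]
    congr 1
    funext s
    rw [Odd.neg_pow ⟨k, rfl⟩, neg_one_smul]
  rw [avgWalk_smul, ← walkMom, neg_one_smul] at h
  linarith

theorem sum_range_two_mul {M : Type*} [AddCommMonoid M] {g : ℕ → M}
    (h : ∀ j, g (2 * j + 1) = 0) (k : ℕ) :
    ∑ m ∈ Finset.range (2 * k + 1), g m = ∑ j ∈ Finset.range (k + 1), g (2 * j) := by
  induction k with
  | zero => simp
  | succ k ih =>
    rw [show 2 * (k + 1) + 1 = 2 * k + 1 + 1 + 1 by ring, Finset.sum_range_succ,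
      Finset.sum_range_succ, ih, h, add_zero, Finset.sum_range_succ (n := k + 1),
      show 2 * k + 1 + 1 = 2 * (k + 1) by ring]

/-- `M₂ₖ / (2 k)!`. -/
def walkCoef (a : ℝ) (N k : ℕ) : ℝ := walkMom a N (2 * k) / (2 * k).factorial

theorem walkCoef_zero (a : ℝ) (k : ℕ) : walkCoef a 0 k = if k = 0 then 1 else 0 := by
  rw [walkCoef, walkMom, avgWalk]
  split_ifs with h
  · simp [h]
  · simp [zero_pow (by omega : 2 * k ≠ 0)]

theorem walkMom_succ (a : ℝ) (N k : ℕ) : walkMom a (N + 1) (2 * k) =
    ∑ j ∈ Finset.range (k + 1),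
      ((2 * k).choose (2 * j) : ℝ) * a ^ (2 * j) * walkMom a N (2 * (k - j)) := by
  obtain ⟨c, hc⟩ : ∃ c : ℕ → ℝ, c = fun m =>
      ((2 * k).choose m : ℝ) * (a ^ m + (-a) ^ m) / 2 := ⟨_, rfl⟩
  have hexp : ∀ s : ℝ, (2 : ℝ)⁻¹ • ((s + a) ^ (2 * k) + (s - a) ^ (2 * k)) =
      ∑ m ∈ Finset.range (2 * k + 1), c m • s ^ (2 * k - m) := fun s => by
    rw [add_comm s a, sub_eq_add_neg, add_comm s (-a), add_pow, add_pow, ← Finset.sum_add_distrib,
      Finset.smul_sum]
    refine Finset.sum_congr rfl fun m _ => ?_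
    simp only [hc, smul_eq_mul]
    ring
  have h1 : walkMom a (N + 1) (2 * k) =
      ∑ m ∈ Finset.range (2 * k + 1), c m * walkMom a N (2 * k - m) := by
    rw [walkMom, avgWalk, ← avgWalk_add, ← avgWalk_smul, funext hexp, avgWalk_sum]
    refine Finset.sum_congr rfl fun m _ => ?_
    rw [avgWalk_smul, smul_eq_mul, walkMom]
  rw [h1, sum_range_two_mul fun j => by simp [hc, Odd.neg_pow ⟨j, rfl⟩]]
  refine Finset.sum_congr rfl fun j _ => ?_
  simp only [hc, (even_two_mul j).neg_pow, Nat.mul_sub]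
  ring

theorem walkCoef_succ (a : ℝ) (N k : ℕ) : walkCoef a (N + 1) k =
    ∑ j ∈ Finset.range (k + 1), walkCoef a N (k - j) * ((a ^ 2) ^ j / (2 * j).factorial) := by
  rw [walkCoef, walkMom_succ, Finset.sum_div]
  refine Finset.sum_congr rfl fun j hj => ?_
  rw [Finset.mem_range] at hj
  rw [walkCoef, ← pow_mul, Nat.cast_choose ℝ (show 2 * j ≤ 2 * k by omega), Nat.mul_sub]
  field_simp

theorem walkCoef_nonneg (a : ℝ) (N : ℕ) : ∀ k, 0 ≤ walkCoef a N k := by
  induction N with
  | zero => intro k; rw [walkCoef_zero]; split_ifs <;> norm_num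
  | succ N ih =>
    intro k
    rw [walkCoef_succ]
    exact Finset.sum_nonneg fun j _ => mul_nonneg (ih _) (by positivity)

theorem walkCoef_le (a : ℝ) (N : ℕ) :
    ∀ k, walkCoef a N k ≤ ((N : ℝ) * (a ^ 2 / 2)) ^ k / k.factorial := by
  induction N with
  | zero =>
    intro k
    rw [walkCoef_zero]
    split_ifs with h
    · simp [h]
    · simp [zero_pow h]
  | succ N ih =>
    intro k
    rw [walkCoef_succ, show ((N + 1 : ℕ) : ℝ) * (a ^ 2 / 2) = a ^ 2 / 2 + N * (a ^ 2 / 2) by
      push_cast; ring, add_pow, Finset.sum_div]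
    refine Finset.sum_le_sum fun j hj => ?_
    rw [Finset.mem_range] at hj
    refine (mul_le_mul (d := (a ^ 2 / 2) ^ j / j.factorial) (ih _) ?_ (by positivity)
      (by positivity)).trans (le_of_eq ?_)
    · rw [div_pow, div_div]
      refine div_le_div_of_nonneg_left (by positivity) (by positivity) ?_
      exact_mod_cast Nat.two_pow_mul_factorial_le_factorial_two_mul j
    · rw [Nat.cast_choose ℝ (show j ≤ k by omega)]
      field_simp

theorem le_walkCoef (a : ℝ) (N : ℕ) : ∀ k, (N.choose k : ℝ) * (a ^ 2 / 2) ^ k ≤ walkCoef a N k := by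
  induction N with
  | zero =>
    intro k
    rw [walkCoef_zero]
    rcases k with _ | k <;> simp
  | succ N ih =>
    intro k
    rw [walkCoef_succ]
    rcases k with _ | k
    · simpa using ih 0
    · rw [Nat.choose_succ_succ, Nat.cast_add]
      refine le_trans ?_ (Finset.sum_le_sum_of_subset_of_nonneg (s := {0, 1})
        (fun j hj => by simp only [Finset.mem_insert, Finset.mem_singleton] at hj; simp; omega)
        fun j _ _ => mul_nonneg (walkCoef_nonneg a N _) (by positivity))
      rw [Finset.sum_pair (by omega : (0 : ℕ) ≠ 1)]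
      have h1 := mul_le_mul_of_nonneg_right (ih k) (show (0 : ℝ) ≤ a ^ 2 / 2 by positivity)
      have h2 := ih (k + 1)
      rw [Nat.succ_eq_add_one, pow_succ, show k + 1 - 1 = k by omega, Nat.sub_zero]
      norm_num
      rw [pow_succ] at h2
      nlinarith

/-- **The limit.** -/
theorem tendsto_walkCoef {t : ℝ} (ht : 0 ≤ t) (k : ℕ) :
    Tendsto (fun N : ℕ => walkCoef (√(2 * t / N)) N k) atTop (𝓝 (t ^ k / k.factorial)) := by
  have hsq : ∀ N : ℕ, √(2 * t / N) ^ 2 / 2 = t / N := fun N => by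
    rw [Real.sq_sqrt (by positivity)]
    ring
  have hlow : Tendsto (fun N : ℕ => (N.choose k : ℝ) * (t / N) ^ k) atTop
      (𝓝 (t ^ k / k.factorial)) := by
    have h1 : Tendsto (fun N : ℕ => t ^ k / k.factorial *
        ∏ i ∈ Finset.range k, (1 - (i : ℝ) / N)) atTop (𝓝 (t ^ k / k.factorial)) := by
      have : Tendsto (fun N : ℕ => ∏ i ∈ Finset.range k, (1 - (i : ℝ) / N)) atTop
          (𝓝 (∏ i ∈ Finset.range k, (1 : ℝ))) := tendsto_finsetProd _ fun i _ => by
        simpa using (tendsto_const_div_atTop_nhds_zero_nat (i : ℝ)).const_sub 1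
      simpa using this.const_mul (t ^ k / k.factorial)
    refine h1.congr' ?_
    filter_upwards [eventually_gt_atTop k] with N hN
    have hN0 : (N : ℝ) ≠ 0 := Nat.cast_ne_zero.2 (by omega)
    have hp : ∏ i ∈ Finset.range k, (1 - (i : ℝ) / N) = (N.descFactorial k : ℝ) / (N : ℝ) ^ k := by
      rw [Nat.descFactorial_eq_prod_range, Nat.cast_prod,
        show (N : ℝ) ^ k = ∏ _i ∈ Finset.range k, (N : ℝ) by simp, ← Finset.prod_div_distrib]
      refine Finset.prod_congr rfl fun i hi => ?_
      rw [Nat.cast_sub (by have := Finset.mem_range.1 hi; omega), sub_div, div_self hN0]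
    rw [hp, Nat.descFactorial_eq_factorial_mul_choose, div_pow]
    push_cast
    field_simp
  refine tendsto_of_tendsto_of_tendsto_of_le_of_le' hlow tendsto_const_nhds
    (Eventually.of_forall fun N => ?_) (eventually_atTop.2 ⟨1, fun N hN => ?_⟩)
  · have := le_walkCoef (√(2 * t / N)) N k
    rwa [hsq] at this
  · have := walkCoef_le (√(2 * t / N)) N k
    rwa [hsq, mul_div_cancel₀ _ (show (N : ℝ) ≠ 0 from Nat.cast_ne_zero.2 (by omega))] at this

end FA.DeBruijn

end
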