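import Fermat.Agent.DeBruijn.Step
import Fermat.Agent.DeBruijn.Walk
import Mathlib.Analysis.Complex.TaylorSeries
import Mathlib.Analysis.Complex.LocallyUniformLimit
import Mathlib.Analysis.Normed.Group.Tannery
import Mathlib.Topology.Algebra.InfiniteSum.Ring

/-!
# De Bruijn's theorem

`N` steps with `a = √(2 t / N)` tend to `heatFlow t f = ∑ (-t)^k / k! f^(2k)` uniformly on discs;
so its zeros lie in `y² ≤ max (D - 2 t) 0` (Hurwitz), and it does not vanish identically, since the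
series in `t` and `-t` compose to the identity.
-/

set_option autoImplicit false

noncomputable section

namespace FA.DeBruijn

open Complex Filter Topology Metric

/-- `e^(-t D²) f`, as a series. -/
def heatFlow (t : ℝ) (f : ℂ → ℂ) (z : ℂ) : ℂ :=
  ∑' k : ℕ, (((-t) ^ k / k.factorial : ℝ) : ℂ) * iteratedDeriv (2 * k) f z

variable {f : ℂ → ℂ}

theorem HeatGrowth.deriv (hf : HeatGrowth f) : HeatGrowth (deriv f) := by
  refine ⟨fun z => hf.diff.deriv z, fun η hη => ?_⟩
  obtain ⟨G, hG⟩ := hf.bound (η / 2) (half_pos hη)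
  refine ⟨η + G, fun z => ?_⟩
  have h := norm_iteratedDeriv_le_of_forall_mem_sphere_norm_le (c := z) 1 one_pos
    hf.diff.diffContOnCl (C := Real.exp (η * ‖z‖ ^ 2 + (η + G))) fun w hw => ?_
  · simpa using h
  refine (hG w).trans (Real.exp_le_exp.2 ?_)
  have h1 : ‖w‖ ≤ ‖z‖ + 1 := by
    rw [mem_sphere_iff_norm] at hw
    linarith [norm_le_norm_add_norm_sub' w z]
  nlinarith [sq_nonneg (‖z‖ - 1), mul_le_mul h1 h1 (norm_nonneg _) (by positivity)]

theorem HeatGrowth.iteratedDeriv (hf : HeatGrowth f) :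
    ∀ n, HeatGrowth (iteratedDeriv n f)
  | 0 => by rw [iteratedDeriv_zero]; exact hf
  | n + 1 => by rw [iteratedDeriv_succ]; exact (hf.iteratedDeriv n).deriv

/-- **The domination of the series.** -/
theorem HeatGrowth.exists_coeff_bound (hf : HeatGrowth f) {t : ℝ} (ht : 0 ≤ t) (R : ℝ) :
    ∃ C : ℝ, 0 ≤ C ∧ ∀ z : ℂ, ‖z‖ ≤ R → ∀ k : ℕ,
      t ^ k / k.factorial * ‖_root_.iteratedDeriv (2 * k) f z‖ ≤ C * (1 / 2) ^ k := by
  obtain ⟨η, hη⟩ : ∃ η, η = 1 / (4 * Real.exp 2 * (t + 1)) := ⟨_, rfl⟩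
  have hη0 : 0 < η := hη ▸ by positivity
  obtain ⟨G, hG⟩ := hf.bound η hη0
  refine ⟨Real.exp (2 * η * R ^ 2 + G), (Real.exp_pos _).le, fun z hz k => ?_⟩
  have hz2 : ‖z‖ ^ 2 ≤ R ^ 2 := pow_le_pow_left₀ (norm_nonneg z) hz 2
  rcases Nat.eq_zero_or_pos k with rfl | hk
  · simp only [pow_zero, Nat.factorial_zero, Nat.cast_one, div_one, mul_zero, one_mul, mul_one,
      iteratedDeriv_zero]
    exact (hG z).trans (Real.exp_le_exp.2 (by nlinarith [sq_nonneg ‖z‖]))
  have hk0 : (0 : ℝ) < k := by exact_mod_cast hk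
  obtain ⟨r, hr⟩ : ∃ r, r = √(k / η) := ⟨_, rfl⟩
  have hr0 : 0 < r := hr ▸ Real.sqrt_pos.2 (by positivity)
  have hr2 : r ^ 2 = k / η := by rw [hr, Real.sq_sqrt (by positivity)]
  have hd := norm_iteratedDeriv_le_of_forall_mem_sphere_norm_le (c := z) (2 * k) hr0
    hf.diff.diffContOnCl (C := Real.exp (2 * η * R ^ 2 + G) * Real.exp 2 ^ k) fun w hw => by
      refine (hG w).trans ?_
      rw [← Real.exp_nat_mul, ← Real.exp_add]
      refine Real.exp_le_exp.2 ?_
      have h1 : ‖w‖ ≤ ‖z‖ + r := by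
        rw [mem_sphere_iff_norm] at hw
        linarith [norm_le_norm_add_norm_sub' w z]
      have h2 : η * r ^ 2 = k := by rw [hr2]; field_simp
      nlinarith [mul_le_mul h1 h1 (norm_nonneg _) (by positivity), sq_nonneg (‖z‖ - r)]
  have hfac : ((2 * k).factorial : ℝ) ≤ k.factorial * (2 * k : ℝ) ^ k := by
    have h1 := Nat.factorial_mul_descFactorial (show k ≤ 2 * k by omega)
    rw [show 2 * k - k = k by omega] at h1
    have h2 := Nat.descFactorial_le_pow (2 * k) k
    rw [← h1]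
    push_cast
    exact mul_le_mul_of_nonneg_left (by exact_mod_cast h2) (Nat.cast_nonneg _)
  obtain ⟨E, hE⟩ : ∃ E, E = Real.exp (2 * η * R ^ 2 + G) := ⟨_, rfl⟩
  rw [← hE] at hd ⊢
  calc t ^ k / k.factorial * ‖_root_.iteratedDeriv (2 * k) f z‖
      ≤ t ^ k / k.factorial *
          (k.factorial * (2 * k : ℝ) ^ k * (E * Real.exp 2 ^ k) / r ^ (2 * k)) := by
        refine mul_le_mul_of_nonneg_left (hd.trans (div_le_div_of_nonneg_right
          (mul_le_mul_of_nonneg_right hfac ?_) (by positivity))) (by positivity)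
        rw [hE]; positivity
    _ = E * (2 * η * Real.exp 2 * t) ^ k := by
        rw [pow_mul, hr2, div_pow, mul_pow, mul_pow, mul_pow, mul_pow]
        field_simp
    _ ≤ _ := by
        refine mul_le_mul_of_nonneg_left (pow_le_pow_left₀ (by positivity) ?_ k)
          (hE ▸ (Real.exp_pos _).le)
        rw [hη]
        field_simp
        linarith

theorem HeatGrowth.summable_heat (hf : HeatGrowth f) {t : ℝ} (ht : 0 ≤ t) (z : ℂ) :
    Summable fun k : ℕ =>
      (((-t) ^ k / k.factorial : ℝ) : ℂ) * _root_.iteratedDeriv (2 * k) f z := by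
  obtain ⟨C, -, hC⟩ := hf.exists_coeff_bound ht ‖z‖
  refine Summable.of_norm_bounded (summable_geometric_two.mul_left C) fun k => ?_
  rw [norm_mul, norm_real, Real.norm_eq_abs, abs_div, abs_pow, abs_neg, abs_of_nonneg ht,
    Nat.abs_cast]
  exact hC z le_rfl k

theorem HeatGrowth.hasDerivAt_heat (hf : HeatGrowth f) {t : ℝ} (ht : 0 ≤ t) (z : ℂ) :
    DifferentiableAt ℂ (heatFlow t f) z ∧
      _root_.deriv (heatFlow t f) z = heatFlow t (_root_.deriv f) z := by
  obtain ⟨F, hF⟩ : ∃ F : ℕ → ℂ → ℂ, F = fun k w =>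
      (((-t) ^ k / k.factorial : ℝ) : ℂ) * _root_.iteratedDeriv (2 * k) f w := ⟨_, rfl⟩
  obtain ⟨C, -, hC⟩ := hf.exists_coeff_bound ht (‖z‖ + 1)
  have hd : ∀ k, Differentiable ℂ (F k) := fun k => by
    rw [hF]; exact (hf.iteratedDeriv _).diff.const_mul _
  have hb : ∀ k, ∀ w ∈ ball (0 : ℂ) (‖z‖ + 1), ‖F k w‖ ≤ C * (1 / 2) ^ k := fun k w hw => by
    simp only [hF]
    rw [norm_mul, norm_real, Real.norm_eq_abs, abs_div, abs_pow, abs_neg, abs_of_nonneg ht,
      Nat.abs_cast]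
    exact hC w (mem_ball_zero_iff.1 hw).le k
  have hz : z ∈ ball (0 : ℂ) (‖z‖ + 1) := mem_ball_zero_iff.2 (lt_add_one _)
  have he : heatFlow t f = fun w => ∑' k, F k w := by rw [hF]; rfl
  have hu := summable_geometric_two.mul_left C
  refine ⟨?_, ?_⟩
  · rw [he]
    exact (Complex.differentiableOn_tsum_of_summable_norm hu
      (fun k => (hd k).differentiableOn) isOpen_ball hb).differentiableAt
        (isOpen_ball.mem_nhds hz)
  · rw [he, ← (Complex.hasSum_deriv_of_summable_norm hu (fun k => (hd k).differentiableOn)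
      isOpen_ball hb hz).tsum_eq, heatFlow]
    refine tsum_congr fun k => ?_
    simp only [hF]
    rw [deriv_const_mul _ ((hf.iteratedDeriv _).diff z), ← iteratedDeriv_succ,
      iteratedDeriv_succ']

theorem HeatGrowth.differentiable_heat (hf : HeatGrowth f) {t : ℝ} (ht : 0 ≤ t) :
    Differentiable ℂ (heatFlow t f) := fun z => (hf.hasDerivAt_heat ht z).1

theorem HeatGrowth.iteratedDeriv_heat {t : ℝ} (ht : 0 ≤ t) :
    ∀ (n : ℕ) {f : ℂ → ℂ}, HeatGrowth f →
      _root_.iteratedDeriv n (heatFlow t f) = heatFlow t (_root_.iteratedDeriv n f) := by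
  intro n
  induction n with
  | zero => intro f _; simp only [iteratedDeriv_zero]
  | succ n ih =>
    intro f hf
    rw [iteratedDeriv_succ', show _root_.deriv (heatFlow t f) = heatFlow t (_root_.deriv f) from
      funext fun z => (hf.hasDerivAt_heat ht z).2, ih hf.deriv, iteratedDeriv_succ']

theorem heatFlow_zero (f : ℂ → ℂ) : heatFlow 0 f = f := by
  funext z
  rw [heatFlow, tsum_eq_single 0 fun k hk => by simp [zero_pow hk]]
  simp

/-- The series in `-t` undoes it. -/
theorem HeatGrowth.eq_zero_of_heat (hf : HeatGrowth f) {t : ℝ} (ht : 0 ≤ t)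
    (h : ∀ z, heatFlow t f z = 0) (z : ℂ) : f z = 0 := by
  obtain ⟨g, hg⟩ : ∃ g : ℕ → ℂ, g = fun n => _root_.iteratedDeriv (2 * n) f z := ⟨_, rfl⟩
  obtain ⟨P, hP⟩ : ∃ P : ℕ × ℕ → ℂ, P = fun p =>
      ((t ^ p.1 / p.1.factorial * ((-t) ^ p.2 / p.2.factorial) : ℝ) : ℂ) * g (p.1 + p.2) :=
    ⟨_, rfl⟩
  have hfib : ∀ (u : ℝ) (n : ℕ), ∑ p ∈ Finset.HasAntidiagonal.antidiagonal n,
      t ^ p.1 / p.1.factorial * (u ^ p.2 / p.2.factorial) = (t + u) ^ n / n.factorial := by
    intro u n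
    rw [(Commute.all t u).add_pow', Finset.sum_div]
    refine Finset.sum_congr rfl fun p hp => ?_
    rw [Finset.HasAntidiagonal.mem_antidiagonal] at hp
    rw [nsmul_eq_mul, ← hp, Nat.cast_add_choose]
    field_simp
  have hnorm : Summable fun p => ‖P p‖ := by
    rw [← Finset.HasAntidiagonal.sigmaAntidiagonalEquivProd.summable_iff]
    refine (summable_sigma_of_nonneg fun _ => norm_nonneg _).2 ⟨fun n => Summable.of_finite, ?_⟩
    obtain ⟨C, -, hC⟩ := hf.exists_coeff_bound (show 0 ≤ t + t by linarith) ‖z‖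
    refine Summable.of_nonneg_of_le (fun n => tsum_nonneg fun _ => norm_nonneg _) (fun n => ?_)
      (summable_geometric_two.mul_left C)
    refine le_trans (le_of_eq ?_) (hC z le_rfl n)
    rw [tsum_fintype]
    simp only [Finset.HasAntidiagonal.sigmaAntidiagonalEquivProd_apply]
    rw [Finset.sum_coe_sort (Finset.HasAntidiagonal.antidiagonal n) fun p => ‖P p‖, ← hfib t n,
      Finset.sum_mul]
    refine Finset.sum_congr rfl fun p hp => ?_
    rw [Finset.HasAntidiagonal.mem_antidiagonal] at hp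
    simp only [hP, hg]
    rw [norm_mul, norm_real, Real.norm_eq_abs, abs_mul, abs_div, abs_div, abs_pow, abs_pow,
      abs_neg, abs_of_nonneg ht, Nat.abs_cast, Nat.abs_cast, hp]
  have hS := hnorm.of_norm.hasSum
  have h0 : ∑' p, P p = 0 := by
    refine (hS.prod_fiberwise (g := fun _ => 0) fun j => ?_).unique hasSum_zero
    have hj := (hf.iteratedDeriv (2 * j)).summable_heat ht z
    have hz : heatFlow t (_root_.iteratedDeriv (2 * j) f) z = 0 := by
      rw [← HeatGrowth.iteratedDeriv_heat ht (2 * j) hf, show heatFlow t f = fun _ => (0 : ℂ) from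
        funext h, iteratedDeriv_const]
      simp
    have h2 := hj.hasSum.mul_left (((t ^ j / j.factorial : ℝ) : ℂ))
    rw [show (∑' k : ℕ, (((-t) ^ k / k.factorial : ℝ) : ℂ) *
      _root_.iteratedDeriv (2 * k) (_root_.iteratedDeriv (2 * j) f) z) = 0 from hz, mul_zero] at h2
    refine h2.congr_fun fun k => ?_
    simp only [hP, hg]
    rw [show 2 * (j + k) = 2 * k + 2 * j by ring, iteratedDeriv_eq_iterate,
      iteratedDeriv_eq_iterate,
      iteratedDeriv_eq_iterate, Function.iterate_add_apply]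
    push_cast
    ring
  have hsig : HasSum (fun n : ℕ => if n = 0 then g 0 else 0) (∑' p, P p) := by
    refine HasSum.sigma ((Finset.HasAntidiagonal.sigmaAntidiagonalEquivProd).hasSum_iff.2 hS)
      fun n => ?_
    simp only [Function.comp_apply, Finset.HasAntidiagonal.sigmaAntidiagonalEquivProd_apply]
    have h1 := hasSum_fintype (fun p : {p // p ∈ Finset.HasAntidiagonal.antidiagonal n} =>
      P (p : ℕ × ℕ))
    rw [Finset.sum_coe_sort (Finset.HasAntidiagonal.antidiagonal n) P] at h1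
    have h3 : ∑ p ∈ Finset.HasAntidiagonal.antidiagonal n, P p = if n = 0 then g 0 else 0 := by
      rw [Finset.sum_congr rfl (g := fun p : ℕ × ℕ =>
        ((t ^ p.1 / p.1.factorial * ((-t) ^ p.2 / p.2.factorial) : ℝ) : ℂ) * g n) fun p hp => by
          rw [Finset.HasAntidiagonal.mem_antidiagonal] at hp
          simp only [hP, hp], ← Finset.sum_mul, ← ofReal_sum, hfib, add_neg_cancel]
      split_ifs with hn
      · simp [hn]
      · simp [zero_pow hn]
    rwa [h3] at h1
  rw [h0] at hsig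
  have h4 := (hasSum_ite_eq (0 : ℕ) (g 0)).unique hsig
  simpa [hg] using h4

theorem iterate_stepOp (a : ℝ) (N : ℕ) :
    ∀ (f : ℂ → ℂ) (z : ℂ),
      ((stepOp a)^[N] f) z = avgWalk a N (fun s => f (z + (s : ℂ) * I)) := by
  induction N with
  | zero => intro f z; simp [avgWalk]
  | succ N ih =>
    intro f z
    rw [Function.iterate_succ_apply, ih, avgWalk, ← avgWalk_add, ← avgWalk_smul]
    congr 1
    funext s
    rw [stepOp, Complex.real_smul, ofReal_add, ofReal_sub]
    push_cast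
    ring_nf

theorem HeatGrowth.iterate (hf : HeatGrowth f) (a : ℝ) :
    ∀ N, HeatGrowth ((DeBruijn.stepOp a)^[N] f)
  | 0 => hf
  | N + 1 => by rw [Function.iterate_succ_apply']; exact (hf.iterate a N).stepOp a

/-- The iterate as a series of derivatives. -/
theorem HeatGrowth.hasSum_iterate (hf : HeatGrowth f) (a : ℝ) (N : ℕ) (z : ℂ) :
    HasSum (fun k : ℕ =>
      (((-1) ^ k * walkCoef a N k : ℝ) : ℂ) * _root_.iteratedDeriv (2 * k) f z)
      (((DeBruijn.stepOp a)^[N] f) z) := by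
  rw [iterate_stepOp]
  obtain ⟨v, hv⟩ : ∃ v : ℕ → ℂ, v = fun n =>
      (n.factorial : ℂ)⁻¹ * I ^ n * _root_.iteratedDeriv n f z := ⟨_, rfl⟩
  have hT : ∀ s : ℝ, HasSum (fun n => s ^ n • v n) (f (z + (s : ℂ) * I)) := fun s => by
    refine (Complex.hasSum_taylorSeries_of_entire hf.diff z (z + (s : ℂ) * I)).congr_fun fun n => ?_
    simp only [hv, Complex.real_smul, smul_eq_mul, add_sub_cancel_left]
    push_cast
    ring
  have h := hasSum_avgWalk a N (fun n (s : ℝ) => s ^ n • v n) _ hT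
  have he : ∀ n, avgWalk a N (fun s : ℝ => s ^ n • v n) = walkMom a N n • v n := fun n => by
    have := map_avgWalk (LinearMap.toSpanSingleton ℝ ℂ (v n)) a N fun s => s ^ n
    simpa [walkMom] using this.symm
  simp only [he] at h
  have hinj : Function.Injective fun k : ℕ => 2 * k := fun _ _ h => by simpa using h
  refine ((hinj.hasSum_iff fun n hn => ?_).2 h).congr_fun fun k => ?_
  · obtain ⟨k, rfl⟩ : ∃ k, n = 2 * k + 1 := ⟨n / 2, by
      by_contra hne
      exact hn ⟨n / 2, by simp only; omega⟩⟩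
    rw [walkMom_odd, zero_smul]
  · simp only [Function.comp_apply, hv, Complex.real_smul, walkCoef]
    rw [pow_mul, I_sq]
    push_cast
    field_simp

/-- The approximations converge uniformly on discs. -/
theorem HeatGrowth.tendsto_iterate (hf : HeatGrowth f) {t : ℝ} (ht : 0 < t) (R ε : ℝ)
    (hε : 0 < ε) : ∀ᶠ N : ℕ in atTop, ∀ z : ℂ, ‖z‖ ≤ R →
      ‖((DeBruijn.stepOp (√(2 * t / N)))^[N] f) z - heatFlow t f z‖ < ε := by
  obtain ⟨C, hC0, hC⟩ := hf.exists_coeff_bound ht.le R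
  obtain ⟨q, hq⟩ : ∃ q : ℕ → ℕ → ℝ, q = fun (N k : ℕ) =>
      |walkCoef (√(2 * t / N)) N k / (t ^ k / k.factorial) - 1| * (C * (1 / 2) ^ k) := ⟨_, rfl⟩
  have hp : ∀ k : ℕ, 0 < t ^ k / (k.factorial : ℝ) := fun k => by positivity
  have hle : ∀ N : ℕ, 1 ≤ N → ∀ k, |q N k| ≤ C * (1 / 2) ^ k := fun N hN k => by
    simp only [hq, abs_mul, abs_abs, abs_of_nonneg (mul_nonneg hC0 (by positivity :
      (0 : ℝ) ≤ (1 / 2) ^ k))]
    refine mul_le_of_le_one_left (by positivity) ?_
    have h1 := walkCoef_le (√(2 * t / N)) N k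
    rw [Real.sq_sqrt (by positivity), show (N : ℝ) * (2 * t / N / 2) = t by
      have : (N : ℝ) ≠ 0 := Nat.cast_ne_zero.2 (by omega)
      field_simp] at h1
    have h2 : walkCoef (√(2 * t / N)) N k / (t ^ k / k.factorial) ≤ 1 :=
      div_le_one_of_le₀ h1 (hp k).le
    have h3 : 0 ≤ walkCoef (√(2 * t / N)) N k / (t ^ k / k.factorial) :=
      div_nonneg (walkCoef_nonneg _ _ _) (hp k).le
    rw [abs_le]
    constructor <;> linarith
  have hlim : Tendsto (fun N => ∑' k, q N k) atTop (𝓝 0) := by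
    have := tendsto_tsum_of_dominated_convergence (f := q) (g := fun _ : ℕ => (0 : ℝ))
      (summable_geometric_two.mul_left C) (fun k => ?_) (eventually_atTop.2 ⟨1, hle⟩)
    · simpa using this
    · simp only [hq]
      have := (((tendsto_walkCoef ht.le k).div_const (t ^ k / k.factorial)).sub_const 1).abs
      rw [div_self (hp k).ne', sub_self, abs_zero] at this
      simpa using this.mul_const (C * (1 / 2) ^ k)
  filter_upwards [hlim.eventually_lt_const hε, eventually_ge_atTop 1] with N hN hN1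
  intro z hz
  have hsum : Summable (q N) := Summable.of_norm_bounded (summable_geometric_two.mul_left C)
    fun k => hle N hN1 k
  refine lt_of_le_of_lt ?_ hN
  have h := (hf.hasSum_iterate (√(2 * t / N)) N z).sub (hf.summable_heat ht.le z).hasSum
  rw [heatFlow, ← h.tsum_eq]
  refine tsum_of_norm_bounded hsum.hasSum fun k => ?_
  simp only [hq]
  rw [← sub_mul, norm_mul, ← ofReal_sub, norm_real, Real.norm_eq_abs, neg_pow t,
    mul_div_assoc ((-1 : ℝ) ^ k),
    ← mul_sub, abs_mul, abs_pow, abs_neg, abs_one, one_pow, one_mul,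
    show walkCoef (√(2 * t / N)) N k - t ^ k / k.factorial =
      (walkCoef (√(2 * t / N)) N k / (t ^ k / k.factorial) - 1) * (t ^ k / k.factorial) by
        rw [sub_mul, div_mul_cancel₀ _ (hp k).ne', one_mul],
    abs_mul, abs_of_pos (hp k), mul_assoc]
  exact mul_le_mul_of_nonneg_left (hC z hz k) (abs_nonneg _)

/-- **Hurwitz's lemma** on a limit of functions without zeros. -/
theorem ne_zero_of_limit {F : ℕ → ℂ → ℂ} {g : ℂ → ℂ} {U : Set ℂ} (hU : IsOpen U)
    (hF : ∀ N, Differentiable ℂ (F N)) (hg : Differentiable ℂ g)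
    (hlim : ∀ R ε : ℝ, 0 < ε → ∀ᶠ N in atTop, ∀ z : ℂ, ‖z‖ ≤ R → ‖F N z - g z‖ < ε)
    (hne : ∀ᶠ N in atTop, ∀ z ∈ U, F N z ≠ 0) (hg0 : ∃ w, g w ≠ 0) {z₀ : ℂ} (hz₀ : z₀ ∈ U) :
    g z₀ ≠ 0 := by
  intro h0
  have hpunct : ∀ᶠ z in 𝓝[≠] z₀, g z ≠ 0 := by
    rcases (hg.differentiableOn.analyticAt univ_mem : AnalyticAt ℂ g z₀
      ).eventually_eq_zero_or_eventually_ne_zero with h | h
    · exfalso
      obtain ⟨w, hw⟩ := hg0
      exact hw ((hg.differentiableOn.analyticOnNhd
        isOpen_univ).eqOn_zero_of_preconnected_of_eventuallyEq_zero isPreconnected_univ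
          (Set.mem_univ z₀) h (Set.mem_univ w))
    · exact h
  rw [eventually_nhdsWithin_iff, Metric.eventually_nhds_iff] at hpunct
  obtain ⟨r₁, hr₁, hpu⟩ := hpunct
  obtain ⟨r₂, hr₂, hsub⟩ := Metric.isOpen_iff.1 hU z₀ hz₀
  obtain ⟨r, hr⟩ : ∃ r, r = min r₁ r₂ / 2 := ⟨_, rfl⟩
  have hr0 : 0 < r := by rw [hr]; exact half_pos (lt_min hr₁ hr₂)
  have hr1 : r < r₁ := by
    rw [hr]; linarith [min_le_left r₁ r₂, lt_min hr₁ hr₂]
  have hrU : closedBall z₀ r ⊆ U := (closedBall_subset_ball (by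
    rw [hr]; linarith [min_le_right r₁ r₂, lt_min hr₁ hr₂])).trans hsub
  obtain ⟨w₀, hw₀, hmin⟩ := (isCompact_sphere z₀ r).exists_isMinOn
    ((NormedSpace.sphere_nonempty).2 hr0.le) hg.continuous.norm.continuousOn
  have hm : 0 < ‖g w₀‖ := norm_pos_iff.2 (hpu (by rw [mem_sphere.1 hw₀]; exact hr1)
    (fun e => by rw [e] at hw₀; simp at hw₀; linarith))
  obtain ⟨N, hN, hNne⟩ := ((hlim (‖z₀‖ + r) (‖g w₀‖ / 2) (half_pos hm)).and hne).exists
  have hb : ∀ w ∈ sphere z₀ r, ‖(F N w)⁻¹‖ ≤ (‖g w₀‖ / 2)⁻¹ := fun w hw => by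
    have h1 : ‖w‖ ≤ ‖z₀‖ + r := by
      rw [mem_sphere_iff_norm] at hw
      linarith [norm_le_norm_add_norm_sub' w z₀]
    have h2 := hN w h1
    have h3 : ‖g w₀‖ ≤ ‖g w‖ := hmin hw
    have h4 := norm_sub_norm_le (g w) (F N w)
    rw [norm_sub_rev] at h4
    rw [norm_inv]
    exact inv_anti₀ (half_pos hm) (by linarith)
  have hd : DiffContOnCl ℂ (fun w => (F N w)⁻¹) (ball z₀ r) := by
    refine DifferentiableOn.diffContOnCl fun w hw => ?_
    rw [closure_ball _ hr0.ne'] at hw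
    exact (((hF N) w).inv (hNne w (hrU hw))).differentiableWithinAt
  have := Complex.norm_le_of_forall_mem_frontier_norm_le isBounded_ball hd
    (C := (‖g w₀‖ / 2)⁻¹) (by rw [frontier_ball _ hr0.ne']; exact hb)
    (subset_closure (mem_ball_self hr0))
  rw [norm_inv, inv_le_inv₀ (norm_pos_iff.2 (hNne z₀ (hrU (mem_closedBall_self hr0.le))))
    (half_pos hm)] at this
  have h5 := hN z₀ (by linarith)
  rw [h0, sub_zero] at h5
  linarith

theorem StripZeros.mono {D D' : ℝ} (hf : StripZeros f D) (h : D ≤ D') : StripZeros f D' :=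
  { hf with zeros := fun z hz => (hf.zeros z hz).trans h }

theorem StripZeros.iterate {a : ℝ} (ha : 0 < a) : ∀ (N : ℕ) {f : ℂ → ℂ} {D : ℝ},
    StripZeros f D → StripZeros ((DeBruijn.stepOp a)^[N] f) (max (D - N * a ^ 2) 0) := by
  intro N
  induction N with
  | zero => intro f D hf; exact hf.mono (by simp)
  | succ N ih =>
    intro f D hf
    rw [Function.iterate_succ_apply]
    refine (ih (hf.stepOp ha)).mono (max_le ?_ (le_max_right _ _))
    rw [sub_le_iff_le_add]
    have h1 : (0 : ℝ) ≤ N * a ^ 2 := by positivity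
    push_cast
    refine max_le ?_ ?_
    · linarith [le_max_left (D - ((N : ℝ) + 1) * a ^ 2) 0]
    · linarith [le_max_right (D - ((N : ℝ) + 1) * a ^ 2) 0]

theorem StripZeros.heat_ne_zero {D : ℝ} (hf : StripZeros f D) {t : ℝ} (ht : 0 ≤ t) :
    ∃ z, heatFlow t f z ≠ 0 := by
  by_contra hno
  push Not at hno
  obtain ⟨w, hw⟩ := hf.ne_zero
  exact hw (hf.eq_zero_of_heat ht hno w)

/-- **De Bruijn's theorem.** -/
theorem StripZeros.heat_zeros {D : ℝ} (hf : StripZeros f D) {t : ℝ} (ht : 0 ≤ t) {z : ℂ}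
    (hz : heatFlow t f z = 0) : z.im ^ 2 ≤ max (D - 2 * t) 0 := by
  rcases eq_or_lt_of_le ht with rfl | ht0
  · rw [heatFlow_zero] at hz
    exact (hf.zeros z hz).trans (by simp)
  by_contra hlt
  rw [not_le] at hlt
  refine ne_zero_of_limit (U := {z : ℂ | max (D - 2 * t) 0 < z.im ^ 2})
    (isOpen_lt continuous_const (Complex.continuous_im.pow 2))
    (F := fun N : ℕ => (DeBruijn.stepOp (√(2 * t / N)))^[N] f)
    (fun N => (hf.toHeatGrowth.iterate _ N).diff) (hf.differentiable_heat ht)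
    (fun R ε hε => hf.tendsto_iterate ht0 R ε hε) ?_ (hf.heat_ne_zero ht) hlt hz
  filter_upwards [eventually_ge_atTop 1] with N hN w hw h0
  have hN0 : (0 : ℝ) < N := by exact_mod_cast hN
  have := (StripZeros.iterate (Real.sqrt_pos.2 (by positivity)) N hf).zeros w h0
  rw [Real.sq_sqrt (by positivity), mul_div_cancel₀ _ hN0.ne'] at this
  exact absurd this (not_le.2 hw)

end FA.DeBruijn

end
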