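import Fermat.Agent.PrimeRaceLittlewood.Product
import Mathlib.Analysis.Complex.Liouville
import Mathlib.Analysis.Calculus.Deriv.Star

/-!
# One step of de Bruijn's operator

For an even real entire `f` of growth `exp (o |z|²)` with its zeros in `y² ≤ D`, a point `z` with
`y > 0`, `y² + a² > D` has `‖f (z - ia)‖ < ‖f (z + ia)‖` unless `f` is constant: the products over
the zeros of a large disc for `f` as a function of `z²` compare pair by pair of conjugates. So
`(f (z + ia) + f (z - ia)) / 2` has its zeros in `y² ≤ max (D - a²) 0`.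
-/

set_option autoImplicit false

noncomputable section

namespace FA.DeBruijn

open Complex Filter Topology
open FA.PrimeRaceLittlewood (sqrt_sq norm_sqrt eventually_product_exact)
open scoped ComplexConjugate

/-- An entire function of growth `exp (o |z|²)`. -/
structure HeatGrowth (f : ℂ → ℂ) : Prop where
  diff : Differentiable ℂ f
  bound : ∀ η : ℝ, 0 < η → ∃ G : ℝ, ∀ z : ℂ, ‖f z‖ ≤ Real.exp (η * ‖z‖ ^ 2 + G)

/-- An even real such function, not identically zero, with all its zeros in `(im z)² ≤ D`. -/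
structure StripZeros (f : ℂ → ℂ) (D : ℝ) : Prop extends HeatGrowth f where
  real : ∀ z : ℂ, f (conj z) = conj (f z)
  even : ∀ z : ℂ, f (-z) = f z
  zeros : ∀ z : ℂ, f z = 0 → z.im ^ 2 ≤ D
  ne_zero : ∃ z : ℂ, f z ≠ 0

/-- `cos (a d/dz) f`. -/
def stepOp (a : ℝ) (f : ℂ → ℂ) (z : ℂ) : ℂ :=
  (f (z + (a : ℂ) * I) + f (z - (a : ℂ) * I)) / 2

theorem HeatGrowth.stepOp {f : ℂ → ℂ} (hf : HeatGrowth f) (a : ℝ) :
    HeatGrowth (stepOp a f) := by
  have hd := hf.diff
  refine ⟨by unfold DeBruijn.stepOp; fun_prop, fun η hη => ?_⟩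
  obtain ⟨G, hG⟩ := hf.bound (η / 2) (half_pos hη)
  refine ⟨η * a ^ 2 + G, fun z => ?_⟩
  have hb : ∀ w : ℂ, ‖w‖ ≤ |a| → ‖f (z + w)‖ ≤ Real.exp (η * ‖z‖ ^ 2 + (η * a ^ 2 + G)) := by
    intro w hw
    refine (hG _).trans (Real.exp_le_exp.2 ?_)
    have h1 : ‖z + w‖ ≤ ‖z‖ + |a| := (norm_add_le _ _).trans (by linarith)
    have h2 := mul_le_mul h1 h1 (norm_nonneg _) (by positivity)
    nlinarith [sq_nonneg (‖z‖ - |a|), sq_abs a]
  have hn : ‖(a : ℂ) * I‖ ≤ |a| := by simp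
  have h2 := hb (-((a : ℂ) * I)) (by rw [norm_neg]; exact hn)
  rw [← sub_eq_add_neg] at h2
  rw [DeBruijn.stepOp, norm_div, Complex.norm_ofNat, div_le_iff₀ two_pos]
  linarith [norm_add_le (f (z + (a : ℂ) * I)) (f (z - (a : ℂ) * I)), hb _ hn]

/-- `f` as a function of the square. -/
def evenPart (f : ℂ → ℂ) (ζ : ℂ) : ℂ := f (ζ ^ (1 / 2 : ℂ))

variable {f : ℂ → ℂ} {D : ℝ}

theorem evenPart_sq (he : ∀ z : ℂ, f (-z) = f z) (w : ℂ) : evenPart f (w ^ 2) = f w := by
  rcases sq_eq_sq_iff_eq_or_eq_neg.1 (sqrt_sq (w ^ 2)) with h | h <;> rw [evenPart, h]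
  exact he w

theorem differentiable_evenPart (hd : Differentiable ℂ f) (he : ∀ z : ℂ, f (-z) = f z) :
    Differentiable ℂ (evenPart f) := by
  have hne : ∀ z₀ : ℂ, z₀ ≠ 0 → DifferentiableAt ℂ (evenPart f) z₀ := by
    intro z₀ h
    have hev : evenPart f =ᶠ[𝓝 z₀]
        fun z => f (z₀ ^ (1 / 2 : ℂ) * (z / z₀) ^ (1 / 2 : ℂ)) :=
      Eventually.of_forall fun z => by
        have e : (z₀ ^ (1 / 2 : ℂ) * (z / z₀) ^ (1 / 2 : ℂ)) ^ 2 = z := by
          rw [mul_pow, sqrt_sq, sqrt_sq]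
          field_simp
        conv_lhs => rw [← e]
        exact evenPart_sq he _
    refine DifferentiableAt.congr_of_eventuallyEq ?_ hev
    have h1 : DifferentiableAt ℂ (fun z : ℂ => (z / z₀) ^ (1 / 2 : ℂ)) z₀ :=
      (differentiableAt_id.div_const z₀).cpow (differentiableAt_const _)
        (by simp [div_self h, one_mem_slitPlane])
    exact DifferentiableAt.fun_comp' (f := fun z : ℂ => z₀ ^ (1 / 2 : ℂ) * (z / z₀) ^ (1 / 2 : ℂ))
      z₀ (hd _) (h1.const_mul _)
  intro z₀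
  rcases eq_or_ne z₀ 0 with rfl | h
  · refine (Complex.analyticAt_of_differentiable_on_punctured_nhds_of_continuousAt ?_
      ?_).differentiableAt
    · filter_upwards [self_mem_nhdsWithin] with z hz using hne z hz
    · have hc : ContinuousAt (fun z : ℂ => z ^ (1 / 2 : ℂ)) 0 :=
        Complex.continuousAt_cpow_const_of_re_pos (Or.inl le_rfl) (by norm_num)
      exact ContinuousAt.comp' (g := f) hd.continuous.continuousAt hc
  · exact hne z₀ h

theorem evenPart_conj (hf : StripZeros f D) (ζ : ℂ) :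
    evenPart f (conj ζ) = conj (evenPart f ζ) := by
  conv_lhs => rw [← sqrt_sq ζ, map_pow, evenPart_sq hf.even, hf.real]
  rw [evenPart]

/-- The order at the conjugate point of a real entire function. -/
theorem analyticOrderNatAt_conj {G : ℂ → ℂ} (hG : Differentiable ℂ G)
    (hr : ∀ z : ℂ, G (conj z) = conj (G z)) (u : ℂ) :
    analyticOrderNatAt G (conj u) = analyticOrderNatAt G u := by
  have ha : ∀ v, AnalyticAt ℂ G v := fun v => hG.differentiableOn.analyticAt univ_mem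
  by_cases htop : analyticOrderAt G u = ⊤
  · have h1 := analyticOrderAt_eq_top.1 htop
    have h2 : analyticOrderAt G (conj u) = ⊤ := by
      rw [analyticOrderAt_eq_top]
      have := (Complex.continuous_conj.tendsto (conj u)).eventually
        (by rw [conj_conj]; exact h1 : ∀ᶠ z in 𝓝 (conj (conj u)), G z = 0)
      filter_upwards [this] with z hz
      rw [hr] at hz
      simpa using hz
    rw [analyticOrderNatAt, analyticOrderNatAt, htop, h2]
  obtain ⟨g, hg, hg0, heq⟩ := (ha u).analyticOrderAt_ne_top.1 htop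
  obtain ⟨n, hn⟩ : ∃ n, n = analyticOrderNatAt G u := ⟨_, rfl⟩
  rw [← hn] at heq ⊢
  rw [analyticOrderNatAt]
  suffices analyticOrderAt G (conj u) = (n : ℕ∞) by rw [this, ENat.toNat_natCast]
  refine (ha _).analyticOrderAt_eq_natCast.2 ⟨conj ∘ g ∘ conj, ?_, ?_, ?_⟩
  · rw [Complex.analyticAt_iff_eventually_differentiableAt]
    have := (Complex.continuous_conj.tendsto (conj u)).eventually
      (by rw [conj_conj]; exact hg.eventually_analyticAt :
        ∀ᶠ z in 𝓝 (conj (conj u)), AnalyticAt ℂ g z)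
    filter_upwards [this] with z hz
    exact differentiableAt_conj_conj_iff.2 hz.differentiableAt
  · simpa using hg0
  · have := (Complex.continuous_conj.tendsto (conj u)).eventually
      (by rw [conj_conj]; exact heq :
        ∀ᶠ z in 𝓝 (conj (conj u)), G z = (z - u) ^ n • g z)
    filter_upwards [this] with z hz
    rw [hr] at hz
    have h := congrArg conj hz
    rw [conj_conj] at h
    rw [h]
    simp [smul_eq_mul]

/-- The two conjugate zeros together. -/
theorem pair_lt {z w : ℂ} {a : ℝ} (ha : 0 < a) (hy : 0 < z.im)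
    (hw : w.im ^ 2 < z.im ^ 2 + a ^ 2) :
    ‖z - (a : ℂ) * I - w‖ * ‖z - (a : ℂ) * I - conj w‖ <
      ‖z + (a : ℂ) * I - w‖ * ‖z + (a : ℂ) * I - conj w‖ := by
  refine (pow_lt_pow_iff_left₀ (by positivity) (by positivity) two_ne_zero).1 ?_
  simp only [mul_pow, Complex.sq_norm, Complex.normSq_apply, sub_re, sub_im, add_re, add_im,
    mul_re, mul_im, ofReal_re, ofReal_im, I_re, I_im, conj_re, conj_im]
  ring_nf
  nlinarith [mul_pos (mul_pos ha hy) (sub_pos.2 hw),
    mul_nonneg (mul_pos ha hy).le (sq_nonneg (z.re - w.re))]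

/-- A function without zeros of this class is constant. -/
theorem StripZeros.exists_const (hf : StripZeros f D) (h : ∀ z, f z ≠ 0) :
    ∀ z, f z = f 0 := by
  have hd := differentiable_evenPart hf.diff hf.even
  have h0 : evenPart f 0 ≠ 0 := h _
  have hgr : ∀ η : ℝ, 0 < η → ∃ G : ℝ, ∀ ζ : ℂ, ‖evenPart f ζ‖ ≤ Real.exp (η * ‖ζ‖ + G) :=
    fun η hη => by
      obtain ⟨G, hG⟩ := hf.bound η hη
      refine ⟨G, fun ζ => ?_⟩
      have := hG (ζ ^ (1 / 2 : ℂ))
      rwa [norm_sqrt, Real.sq_sqrt (norm_nonneg ζ)] at this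
  have hb : Bornology.IsBounded (Set.range (evenPart f)) := by
    refine (Metric.isBounded_closedBall (x := (0 : ℂ))
      (r := ‖evenPart f 0‖ * Real.exp 1)).subset ?_
    rintro _ ⟨p, rfl⟩
    rw [mem_closedBall_zero_iff]
    obtain ⟨r, Z, hZ, -, hup, -⟩ := (eventually_product_exact hd h0 hgr p one_pos).exists
    have hZe : Z = 0 := Multiset.eq_zero_of_forall_notMem fun ρ hρ => h _ (hZ ρ hρ).2.2
    simpa [hZe] using hup
  intro z
  rw [← evenPart_sq hf.even z, hd.apply_eq_apply_of_bounded hb (z ^ 2) ((0 : ℂ) ^ 2),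
    evenPart_sq hf.even]

/-- **The strict inequality.** -/
theorem StripZeros.norm_lt (hf : StripZeros f D) {a : ℝ} (ha : 0 < a) {z : ℂ}
    (hy : 0 < z.im) (hz : D < z.im ^ 2 + a ^ 2) (hzero : ∃ w, f w = 0) :
    ‖f (z - (a : ℂ) * I)‖ < ‖f (z + (a : ℂ) * I)‖ := by
  classical
  obtain ⟨F, hF⟩ : ∃ F, F = evenPart f := ⟨_, rfl⟩
  have hFd : Differentiable ℂ F := hF ▸ differentiable_evenPart hf.diff hf.even
  obtain ⟨b, hb⟩ : ∃ b : ℝ, F b ≠ 0 := by
    by_contra hno
    push Not at hno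
    obtain ⟨v, hv⟩ := hf.ne_zero
    refine hv ?_
    rw [← evenPart_sq hf.even v, ← hF]
    refine (hFd.differentiableOn.analyticOnNhd
      isOpen_univ).eqOn_zero_of_preconnected_of_frequently_eq_zero isPreconnected_univ
        (Set.mem_univ (0 : ℂ)) ?_ (Set.mem_univ _)
    have ht : Tendsto (fun t : ℝ => (t : ℂ)) (𝓝[≠] 0) (𝓝[≠] ((0 : ℝ) : ℂ)) :=
      tendsto_nhdsWithin_of_tendsto_nhds_of_eventually_within _
        ((Complex.continuous_ofReal.tendsto _).mono_left nhdsWithin_le_nhds)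
        (eventually_mem_nhdsWithin.mono fun t ht => ofReal_ne_zero.2 ht)
    rw [← ofReal_zero]
    exact ht.frequently (Frequently.of_forall fun t => hno t)
  obtain ⟨G, hG⟩ : ∃ G : ℂ → ℂ, G = fun u => F ((b : ℂ) + u) := ⟨_, rfl⟩
  have hGd : Differentiable ℂ G := hG ▸ fun u => (hFd _).fun_comp' u (by fun_prop)
  have hG0 : G 0 ≠ 0 := by simpa [hG] using hb
  have hGr : ∀ u, G (conj u) = conj (G u) := fun u => by
    simp only [hG, hF]
    rw [← evenPart_conj hf, map_add, conj_ofReal]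
  have hGg : ∀ η : ℝ, 0 < η → ∃ K : ℝ, ∀ u : ℂ, ‖G u‖ ≤ Real.exp (η * ‖u‖ + K) := fun η hη => by
    obtain ⟨K, hK⟩ := hf.bound η hη
    refine ⟨η * |b| + K, fun u => ?_⟩
    have h1 := hK (((b : ℂ) + u) ^ (1 / 2 : ℂ))
    rw [norm_sqrt, Real.sq_sqrt (norm_nonneg _)] at h1
    simp only [hG, hF, evenPart]
    refine h1.trans (Real.exp_le_exp.2 ?_)
    have h2 := norm_add_le (b : ℂ) u
    rw [norm_real, Real.norm_eq_abs] at h2
    nlinarith
  obtain ⟨p, hp⟩ : ∃ p, p = z + (a : ℂ) * I := ⟨_, rfl⟩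
  obtain ⟨q, hq⟩ : ∃ q, q = z - (a : ℂ) * I := ⟨_, rfl⟩
  have hGp : ∀ v : ℂ, G (v ^ 2 - b) = f v := fun v => by
    simp only [hG, hF]
    rw [add_sub_cancel, evenPart_sq hf.even]
  rw [← hp, ← hq]
  obtain ⟨w₀, hw₀⟩ := hzero
  obtain ⟨ρ₀, hρ₀⟩ : ∃ ρ₀, ρ₀ = w₀ ^ 2 - (b : ℂ) := ⟨_, rfl⟩
  obtain ⟨ψ, hψ⟩ : ∃ ψ : ℂ → ℂ → ℝ, ψ = fun (v ρ : ℂ) =>
      ‖v ^ 2 - b - ρ‖ * ‖v ^ 2 - b - conj ρ‖ / (‖ρ‖ * ‖ρ‖) := ⟨_, rfl⟩
  have hψlt : ∀ ρ, ρ ≠ 0 → G ρ = 0 → ψ q ρ < ψ p ρ := by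
    intro ρ hρ hGρ
    obtain ⟨w, hw⟩ : ∃ w : ℂ, w = ((b : ℂ) + ρ) ^ (1 / 2 : ℂ) := ⟨_, rfl⟩
    have hw2 : w ^ 2 = (b : ℂ) + ρ := by rw [hw, sqrt_sq]
    have hfw : f w = 0 := by rw [← hGρ, ← hGp, hw2, add_sub_cancel_left]
    have hwim : w.im ^ 2 < z.im ^ 2 + a ^ 2 := lt_of_le_of_lt (hf.zeros w hfw) hz
    have key : ∀ v : ℂ, ψ v ρ =
        (‖v - w‖ * ‖v - conj w‖) * (‖v - -w‖ * ‖v - conj (-w)‖) / (‖ρ‖ * ‖ρ‖) := by
      intro v
      have e1 : v ^ 2 - b - ρ = (v - w) * (v - -w) := by linear_combination hw2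
      have e2 : v ^ 2 - b - conj ρ = (v - conj w) * (v - conj (-w)) := by
        have h' : (conj w) ^ 2 = (b : ℂ) + conj ρ := by
          rw [← map_pow, hw2, map_add, conj_ofReal]
        rw [map_neg]
        linear_combination h'
      simp only [hψ, e1, e2, norm_mul]
      ring
    rw [key, key, hp, hq]
    refine div_lt_div_of_pos_right ?_ (mul_pos (norm_pos_iff.2 hρ) (norm_pos_iff.2 hρ))
    exact mul_lt_mul'' (pair_lt ha hy hwim) (pair_lt ha hy (by simpa using hwim))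
      (by positivity) (by positivity)
  have hGρ₀ : G ρ₀ = 0 := by rw [hρ₀, hGp, hw₀]
  have hρ₀0 : ρ₀ ≠ 0 := fun e => hG0 (e ▸ hGρ₀)
  obtain ⟨κ, hκ1, hκ⟩ : ∃ κ : ℝ, 1 < κ ∧ κ * ψ q ρ₀ ≤ ψ p ρ₀ := by
    have hlt := hψlt ρ₀ hρ₀0 hGρ₀
    rcases eq_or_lt_of_le (show 0 ≤ ψ q ρ₀ by simp only [hψ]; positivity) with h0 | h0
    · exact ⟨2, one_lt_two, by rw [← h0]; linarith⟩
    · exact ⟨ψ p ρ₀ / ψ q ρ₀, (one_lt_div h0).2 hlt, (div_mul_cancel₀ _ h0.ne').le⟩
  have hfp : f p ≠ 0 := fun h0 => by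
    have := hf.zeros p h0
    simp [hp] at this
    nlinarith
  have hmain : ∀ ε : ℝ, 0 < ε → κ * ‖f q‖ ^ 2 ≤ ‖f p‖ ^ 2 * Real.exp ε := by
    intro ε hε
    obtain ⟨r, ⟨⟨Zp, hZp, hordp, -, hlow⟩, ⟨Zq, hZq, hordq, hup, -⟩⟩, hr⟩ :=
      (((eventually_product_exact hGd hG0 hGg (p ^ 2 - b) (ε := ε / 4) (by linarith)).and
        (eventually_product_exact hGd hG0 hGg (q ^ 2 - b) (ε := ε / 4) (by linarith))).and
          (eventually_ge_atTop ‖ρ₀‖)).exists
    have hsame : Zq = Zp := Multiset.ext.2 fun u => by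
      by_cases hu : ‖u‖ ≤ r
      · rw [← hordp u hu, ← hordq u hu]
      · rw [Multiset.count_eq_zero.2 fun h => hu (hZp u h).1,
          Multiset.count_eq_zero.2 fun h => hu (hZq u h).1]
    rw [hsame] at hup
    have hconj : Zp.map conj = Zp := Multiset.ext.2 fun u => by
      rw [show Multiset.count u (Zp.map conj) = Multiset.count (conj u) Zp by
        conv_lhs => rw [← conj_conj u]
        exact Multiset.count_map_eq_count' _ Zp (starRingEnd ℂ).injective (conj u)]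
      by_cases hu : ‖u‖ ≤ r
      · rw [← hordp u hu, ← hordp (conj u) (by rwa [RCLike.norm_conj]),
          analyticOrderNatAt_conj hGd hGr]
      · rw [Multiset.count_eq_zero.2 fun h => hu (hZp u h).1,
          Multiset.count_eq_zero.2 fun h => hu (by simpa using (hZp _ h).1)]
    obtain ⟨Pv, hPv⟩ : ∃ Pv : ℂ → ℝ, Pv = fun (v : ℂ) =>
        (Zp.map fun ρ => ‖v ^ 2 - b - ρ‖ / ‖ρ‖).prod := ⟨_, rfl⟩
    have hsq : ∀ v, Pv v * Pv v = (Zp.map (ψ v)).prod := by
      intro v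
      have e : Pv v = (Zp.map fun ρ => ‖v ^ 2 - b - conj ρ‖ / ‖ρ‖).prod := by
        simp only [hPv]
        conv_lhs => rw [← hconj, Multiset.map_map]
        simp only [Function.comp_def, RCLike.norm_conj]
      nth_rw 2 [e]
      simp only [hPv, ← Multiset.prod_map_mul]
      refine congrArg Multiset.prod (Multiset.map_congr rfl fun ρ _ => ?_)
      simp only [hψ]
      rw [div_mul_div_comm]
    have hmem : ρ₀ ∈ Zp := by
      rw [← Multiset.count_ne_zero, ← hordp ρ₀ hr]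
      intro h
      have ha' : AnalyticAt ℂ G ρ₀ := hGd.differentiableOn.analyticAt univ_mem
      rw [analyticOrderNatAt, ENat.toNat_eq_zero] at h
      rcases h with h | h
      · exact ha'.analyticOrderAt_eq_zero.1 h hGρ₀
      · refine (hGd.differentiableOn.analyticOnNhd
          isOpen_univ).analyticOrderAt_ne_top_of_isPreconnected isPreconnected_univ (x := (0 : ℂ))
            (Set.mem_univ _) (Set.mem_univ _) ?_ h
        rw [analyticOrderAt_eq_zero.2 (Or.inr hG0)]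
        exact ENat.zero_ne_top
    have hprod : κ * (Pv q * Pv q) ≤ Pv p * Pv p := by
      rw [hsq, hsq, ← Multiset.cons_erase hmem, Multiset.map_cons, Multiset.map_cons,
        Multiset.prod_cons, Multiset.prod_cons, ← mul_assoc]
      refine mul_le_mul hκ (Multiset.prod_map_le_prod_map₀ _ _
        (fun ρ _ => by simp only [hψ]; positivity) fun ρ hρ => ?_)
        (Multiset.prod_nonneg fun c hc => by
          obtain ⟨ρ, -, rfl⟩ := Multiset.mem_map.1 hc
          simp only [hψ]; positivity) (by simp only [hψ]; positivity)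
      obtain ⟨-, h1, h2⟩ := hZp ρ (Multiset.mem_of_mem_erase hρ)
      exact (hψlt ρ h1 h2).le
    have hPv0 : ∀ v, 0 ≤ Pv v := fun v => by
      simp only [hPv]
      exact Multiset.prod_nonneg fun c hc => by
        obtain ⟨ρ, -, rfl⟩ := Multiset.mem_map.1 hc; positivity
    have hup' : ‖f q‖ ≤ ‖G 0‖ * Pv q * Real.exp (ε / 4) := by
      rw [← hGp q]; simpa only [hPv] using hup
    have hlow' : ‖G 0‖ * Pv p ≤ ‖f p‖ * Real.exp (ε / 4) := by
      rw [← hGp p, ← div_le_iff₀ (Real.exp_pos _), div_eq_mul_inv, ← Real.exp_neg]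
      simpa only [hPv] using hlow
    calc κ * ‖f q‖ ^ 2 ≤ κ * (‖G 0‖ * Pv q * Real.exp (ε / 4)) ^ 2 := by gcongr
      _ = ‖G 0‖ ^ 2 * (κ * (Pv q * Pv q)) * Real.exp (ε / 4) ^ 2 := by ring
      _ ≤ ‖G 0‖ ^ 2 * (Pv p * Pv p) * Real.exp (ε / 4) ^ 2 := by gcongr
      _ = (‖G 0‖ * Pv p) ^ 2 * Real.exp (ε / 4) ^ 2 := by ring
      _ ≤ (‖f p‖ * Real.exp (ε / 4)) ^ 2 * Real.exp (ε / 4) ^ 2 := by
          gcongr
          exact mul_nonneg (norm_nonneg _) (hPv0 p)
      _ = ‖f p‖ ^ 2 * Real.exp ε := by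
          rw [mul_pow, mul_assoc, ← Real.exp_nat_mul, ← Real.exp_add]
          ring_nf
  have hlim : κ * ‖f q‖ ^ 2 ≤ ‖f p‖ ^ 2 := by
    have hc : Continuous fun ε : ℝ => ‖f p‖ ^ 2 * Real.exp ε := by fun_prop
    have ht := (hc.tendsto 0).mono_left (nhdsWithin_le_nhds (s := Set.Ioi (0 : ℝ)))
    rw [Real.exp_zero, mul_one] at ht
    exact ge_of_tendsto ht (eventually_mem_nhdsWithin.mono fun ε hε => hmain ε hε)
  have hp0 : 0 < ‖f p‖ := norm_pos_iff.2 hfp
  by_contra hge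
  rw [not_lt] at hge
  have h1 : ‖f p‖ ^ 2 ≤ ‖f q‖ ^ 2 := pow_le_pow_left₀ (norm_nonneg _) hge 2
  nlinarith [mul_le_mul_of_nonneg_left h1 (sub_pos.2 hκ1).le, pow_pos hp0 2]

/-- **De Bruijn's step.** -/
theorem StripZeros.stepOp (hf : StripZeros f D) {a : ℝ} (ha : 0 < a) :
    StripZeros (stepOp a f) (max (D - a ^ 2) 0) := by
  have hreal : ∀ z, DeBruijn.stepOp a f (conj z) = conj (DeBruijn.stepOp a f z) := fun z => by
    rw [DeBruijn.stepOp, DeBruijn.stepOp, map_div₀, map_add, ← hf.real, ← hf.real, map_add,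
      map_sub, map_mul, conj_ofReal, conj_I, Complex.conj_ofNat]
    ring_nf
  have hmax : ∀ z : ℂ, max (D - a ^ 2) 0 < z.im ^ 2 → DeBruijn.stepOp a f z ≠ 0 := by
    suffices ∀ z : ℂ, 0 < z.im → D < z.im ^ 2 + a ^ 2 → DeBruijn.stepOp a f z ≠ 0 by
      intro z hz h0
      obtain ⟨h1, h2⟩ := max_lt_iff.1 hz
      rcases lt_trichotomy z.im 0 with h | h | h
      · refine this (conj z) (by simp; linarith) (by simp; linarith) ?_
        rw [hreal, h0, map_zero]
      · simp [h] at h2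
      · exact this z h (by linarith) h0
    intro z hy hz h0
    rw [DeBruijn.stepOp, div_eq_zero_iff, or_iff_left two_ne_zero] at h0
    by_cases hzero : ∃ w, f w = 0
    · have h := hf.norm_lt ha hy hz hzero
      rw [eq_neg_of_add_eq_zero_left h0, norm_neg] at h
      exact lt_irrefl _ h
    · push Not at hzero
      rw [hf.exists_const hzero, hf.exists_const hzero (z - _)] at h0
      exact hzero 0 (by linear_combination h0 / 2)
  refine
    { hf.toHeatGrowth.stepOp a with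
      real := hreal
      even := fun z => ?_
      zeros := fun z h0 => not_lt.1 fun h => hmax z h h0
      ne_zero := ⟨((|max (D - a ^ 2) 0| + 1 : ℝ) : ℂ) * I, hmax _ ?_⟩ }
  · rw [DeBruijn.stepOp, DeBruijn.stepOp, ← hf.even (z + _), ← hf.even (z - _)]
    ring_nf
  · simp only [mul_im, ofReal_re, ofReal_im, I_re, I_im, mul_zero, add_zero, mul_one]
    nlinarith [le_abs_self (max (D - a ^ 2) 0), abs_nonneg (max (D - a ^ 2) 0)]

end FA.DeBruijn

end
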