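import Fermat.Agent.DeBruijn.Heat
import Fermat.Agent.RiemannMangoldt.Xi
import Fermat.Agent.LiCriterion.Coefficients
import Fermat.Agent.PrimeRaceLittlewood.Xi

/-!
# Riemann's `ξ` is in the class

`ξ (1/2 + i z/2) / 8` has its zeros in `|im z| < 1`.
-/

set_option autoImplicit false

noncomputable section

namespace FA.DeBruijn

open Complex Filter Topology
open FA.RiemannMangoldt (xiFn differentiable_xiFn xiFn_one_sub xiFn_eq xiFn_zero_strip
  xiFn_real_ne_zero)
open FA.LiCriterion (xiFn_conj)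
open scoped ComplexConjugate

/-- `ξ (1/2 + i z/2) / 8`. -/
def xiWave (z : ℂ) : ℂ := xiFn (1 / 2 + I * z / 2) / 8

theorem norm_zeta₁_le {s : ℂ} (hs : 1 / 2 ≤ s.re) :
    ‖riemannZeta₁ s‖ ≤ 2 * (1 + ‖s‖) ^ 2 := by
  rw [FA.CycloGrowth.riemannZeta₁_eq (by linarith)]
  have h1 := FA.CycloGrowth.norm_fracInt_le (s := s) (by linarith)
  have h2 : 1 / s.re ≤ 2 := by rw [div_le_iff₀ (by linarith)]; linarith
  have h3 : ‖s - 1‖ ≤ ‖s‖ + 1 := by simpa using norm_sub_le s 1
  refine (norm_sub_le _ _).trans ?_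
  rw [norm_mul, norm_mul]
  have h4 : ‖s - 1‖ * ‖s‖ * ‖FA.CycloGrowth.fracInt s‖ ≤ (‖s‖ + 1) * ‖s‖ * 2 :=
    mul_le_mul (mul_le_mul_of_nonneg_right h3 (norm_nonneg _)) (h1.trans h2) (norm_nonneg _)
      (by positivity)
  nlinarith [norm_nonneg s]

theorem xiWave_even (z : ℂ) : xiWave (-z) = xiWave z := by
  rw [xiWave, xiWave, show 1 / 2 + I * -z / 2 = 1 - (1 / 2 + I * z / 2) by ring, xiFn_one_sub]

theorem heatGrowth_xiWave : HeatGrowth xiWave := by
  refine ⟨?_, fun η hη => ?_⟩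
  · have := differentiable_xiFn
    unfold xiWave
    fun_prop
  obtain ⟨G, hG⟩ := FA.PrimeRaceLittlewood.exists_gamma_le (show 0 < η / 2 by linarith)
  obtain ⟨K, hK⟩ : ∃ K, K = |G| + 9 / η + 8 * η + 9 := ⟨_, rfl⟩
  refine ⟨K, fun z => ?_⟩
  wlog hz : z.im ≤ 0 generalizing z
  · have := this (-z) (by simp; linarith)
    rwa [xiWave_even, norm_neg] at this
  obtain ⟨s, hs⟩ : ∃ s, s = 1 / 2 + I * z / 2 := ⟨_, rfl⟩
  have hre : s.re = 1 / 2 - z.im / 2 := by simp [hs]; ring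
  obtain ⟨r, hr⟩ : ∃ r, r = ‖z‖ := ⟨_, rfl⟩
  have hr0 : 0 ≤ r := hr ▸ norm_nonneg z
  have hsn : ‖s‖ ≤ 1 + r := by
    rw [hs, hr]
    refine (norm_add_le _ _).trans ?_
    simp
    linarith [norm_nonneg z]
  have him := abs_le.1 ((Complex.abs_im_le_norm z).trans_eq hr.symm)
  obtain ⟨x, hx⟩ : ∃ x, x = s.re / 2 := ⟨_, rfl⟩
  have hx4 : 1 / 4 ≤ x := by linarith
  have hΓ : ‖Gammaℝ s‖ ≤ 4 * Real.exp (η / 2 * (x + 1) ^ 2 + G) := by
    refine (FA.HeckeBS.norm_Gammaℝ_le (by linarith)).trans ?_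
    refine (mul_le_of_le_one_left (Real.Gamma_nonneg_of_nonneg (by linarith))
      (Real.rpow_le_one_of_one_le_of_nonpos (by linarith [Real.pi_gt_three])
        (by linarith))).trans ?_
    rw [← hx]
    have h1 := hG (x + 1) (by linarith)
    rw [Real.Gamma_add_one (by linarith : x ≠ 0)] at h1
    have h2 : 0 ≤ Real.Gamma x := Real.Gamma_nonneg_of_nonneg (by linarith)
    nlinarith
  have hζ := norm_zeta₁_le (s := s) (by linarith)
  rw [xiWave, ← hs, xiFn_eq (by linarith), norm_div, norm_div, norm_mul, norm_mul,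
    Complex.norm_ofNat, Complex.norm_ofNat]
  have hx1 : (x + 1) ^ 2 ≤ (2 + r / 4) ^ 2 := pow_le_pow_left₀ (by linarith) (by linarith) 2
  calc ‖s‖ * ‖Gammaℝ s‖ * ‖riemannZeta₁ s‖ / 2 / 8
      ≤ (1 + r) * (4 * Real.exp (η / 2 * (x + 1) ^ 2 + G)) * (2 * (1 + (1 + r)) ^ 2) / 2 / 8 := by
        gcongr
        exact hζ.trans (by gcongr)
    _ ≤ Real.exp (3 * (1 + r)) * Real.exp (η / 2 * (x + 1) ^ 2 + G) := by
        have e : Real.exp (3 * (1 + r)) = Real.exp (1 + r) ^ 3 := by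
          rw [← Real.exp_nat_mul]; norm_num
        have h2 : 2 + r ≤ Real.exp (1 + r) := by linarith [Real.add_one_le_exp (1 + r)]
        have h3 : (1 + r) * (2 + r) ^ 2 ≤ Real.exp (1 + r) ^ 3 := by
          calc (1 + r) * (2 + r) ^ 2 ≤ Real.exp (1 + r) * Real.exp (1 + r) ^ 2 := by
                gcongr
                linarith
            _ = _ := by ring
        rw [e]
        nlinarith [Real.exp_pos (η / 2 * (x + 1) ^ 2 + G),
          mul_le_mul_of_nonneg_right h3 (Real.exp_pos (η / 2 * (x + 1) ^ 2 + G)).le,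
          mul_nonneg (mul_nonneg (add_nonneg zero_le_one hr0) (sq_nonneg (2 + r)))
            (Real.exp_pos (η / 2 * (x + 1) ^ 2 + G)).le]
    _ ≤ Real.exp (η * ‖z‖ ^ 2 + K) := by
        rw [← Real.exp_add, ← hr, hK]
        refine Real.exp_le_exp.2 ?_
        have h5 : 3 * r ≤ η / 4 * r ^ 2 + 9 / η := by
          rw [← sub_nonneg]
          refine (show (0 : ℝ) ≤ η / 4 * (r - 6 / η) ^ 2 by positivity).trans_eq ?_
          field_simp
          ring
        nlinarith [le_abs_self G, mul_nonneg hη.le (sq_nonneg (r - 1))]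

theorem stripZeros_xiWave : StripZeros xiWave 1 :=
  { heatGrowth_xiWave with
    real := fun z => by
      rw [← xiWave_even z, xiWave, xiWave, map_div₀, ← xiFn_conj]
      simp only [map_add, map_div₀, map_mul, map_neg, map_one, conj_I, map_ofNat]
      ring_nf
    even := xiWave_even
    zeros := fun z hz => by
      rw [xiWave, div_eq_zero_iff, or_iff_left (by norm_num)] at hz
      obtain ⟨h1, h2⟩ := xiFn_zero_strip hz
      simp at h1 h2
      nlinarith
    ne_zero := ⟨0, by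
      rw [xiWave, mul_zero, zero_div, add_zero]
      refine div_ne_zero ?_ (by norm_num)
      simpa using xiFn_real_ne_zero (1 / 2)⟩ }

end FA.DeBruijn

end
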